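import Fermat.Agent.Biquadratic.Rational
import Mathlib.RingTheory.Coprime.Lemmas
import Mathlib.Tactic.LinearCombination

/-!
# The law of biquadratic reciprocity

For primary `α` and `β`, `(α / β)₄ = (-1) ^ ((N α - 1) / 4 · (N β - 1) / 4) · (β / α)₄`. For `α = a + b i` and
`β = c + d i` without rational factors, both symbols reduce to symbols at `a`, `c` and `a c + b d`.
-/

set_option autoImplicit false
set_option linter.unusedSectionVars false

noncomputable section

open scoped Classical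

namespace FA.Biquadratic

open FA.CM.Quartic

local notation "ℤ[i]" => GaussianInt
local notation "iu" => (⟨0, 1⟩ : GaussianInt)

/-- `(N α - 1) / 4`. -/
def normExp (α : ℤ[i]) : ℕ := (α.norm.natAbs - 1) / 4

/-- `1` when `n` is `3` modulo `4`. -/
def signBit (n : ℤ) : ℕ := if n % 4 = 1 then 0 else 1

/-- `(n² - 1) / 8`. -/
def octExp (n : ℤ) : ℕ := ((n * n).natAbs - 1) / 8

theorem octExp_spec {n : ℤ} (hn : n % 2 = 1) : 8 * (octExp n : ℤ) + 1 = n * n := by
  obtain ⟨k, rfl⟩ : ∃ k, n = 2 * k + 1 := ⟨n / 2, by omega⟩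
  obtain ⟨t, ht⟩ := Int.even_mul_succ_self k
  have h : (2 * k + 1) * (2 * k + 1) = 8 * t + 1 := by linear_combination 4 * ht
  have := mul_self_nonneg (2 * k + 1)
  rw [h] at this ⊢
  rw [octExp, h]
  omega

theorem normExp_spec {α : ℤ[i]} (hα : IsOdd α) : 4 * (normExp α : ℤ) + 1 = α.norm := by
  have := natAbs_norm_mod_four hα
  have := GaussianInt.norm_nonneg α
  unfold normExp
  omega

theorem zmod_two_cast {x y : ℤ} (h : x % 2 = y % 2) : (x : ZMod 2) = y :=
  (ZMod.intCast_eq_intCast_iff' x y 2).mpr (by simpa using h)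

theorem neg_one_pow_congr {m n : ℕ} (h : (m : ZMod 2) = n) : (-1 : ℤ[i]) ^ m = (-1) ^ n := by
  rw [neg_one_pow_eq_pow_mod_two, neg_one_pow_eq_pow_mod_two (n := n), (ZMod.natCast_eq_natCast_iff' m n 2).mp h]

theorem cast_normExp {α : ℤ[i]} (hα : IsPrimary α) : (normExp α : ZMod 2) = ((α.im / 2 : ℤ) : ZMod 2) := by
  have h := normExp_spec (isOdd_of_isPrimary hα)
  obtain ⟨s, t, e1, e2⟩ := hα.exists_eq
  rw [Zsqrtd.norm_def, e1, e2] at h
  rw [← Int.cast_natCast]
  refine zmod_two_cast ?_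
  rw [e1, show (2 * s) / 2 = s by omega]
  have h' : (normExp α : ℤ) = 4 * (t * t) + 2 * t - 4 * (t * s) + 2 * (s * s) - s := by
    refine mul_left_cancel₀ (show (4 : ℤ) ≠ 0 by norm_num) ?_
    linear_combination h
  omega

theorem cast_signBit {α : ℤ[i]} (hα : IsPrimary α) : (signBit α.re : ZMod 2) = ((α.im / 2 : ℤ) : ZMod 2) := by
  obtain ⟨h1, h2⟩ := hα
  rw [← Int.cast_natCast]
  refine zmod_two_cast ?_
  unfold signBit
  split_ifs <;> omega

theorem re_odd {α : ℤ[i]} (hα : IsPrimary α) : α.re % 2 = 1 := by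
  obtain ⟨h1, h2⟩ := hα
  omega

theorem symbol4_neg_one {α : ℤ[i]} (hα : IsOdd α) : symbol4 α (-1) = (-1) ^ normExp α :=
  symbol4_unit hα (by decide)

theorem symbol4_intCast_signed {β : ℤ[i]} (hβ : IsPrimary β) {n : ℤ} (hn : n % 2 = 1)
    (hc : IsCoprime β (n : ℤ[i])) :
    symbol4 β (n : ℤ[i]) = (-1) ^ (signBit n * normExp β) * symbol4 (n : ℤ[i]) β := by
  unfold signBit
  split_ifs with h
  · rw [zero_mul, pow_zero, one_mul, symbol4_intCast_comm h hβ hc]
  · have ho := isOdd_of_isPrimary hβ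
    conv_lhs => rw [show (n : ℤ[i]) = -1 * ((-n : ℤ) : ℤ[i]) by push_cast; ring, symbol4_mul_right ho,
      symbol4_neg_one ho, symbol4_intCast_comm (by omega : (-n) % 4 = 1) hβ (by simpa using hc.neg_right)]
    rw [one_mul, symbol4_associated (isOdd_intCast.mpr hn)
      (by rw [Int.cast_neg]; exact (Associated.refl _).neg_right)]

theorem symbol4_intCast_I {n : ℤ} (hn : n % 2 = 1) : symbol4 (n : ℤ[i]) iu = (-1) ^ octExp n := by
  rw [symbol4_unit (isOdd_intCast.mpr hn) (by decide), Zsqrtd.norm_intCast]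
  have h := octExp_spec hn
  rw [show ((n * n).natAbs - 1) / 4 = 2 * octExp n by rw [← h]; omega, pow_mul]
  rfl

theorem mk_eq (α : ℤ[i]) : α = (α.re : ℤ[i]) + (α.im : ℤ[i]) * iu := by
  ext <;> simp

theorem coprime_re {β : ℤ[i]} (h : IsCoprime β.re β.im) : IsCoprime β (β.re : ℤ[i]) := by
  have h1 : IsCoprime ((β.im : ℤ[i]) * iu) (β.re : ℤ[i]) :=
    (isCoprime_mul_unit_right_left (Zsqrtd.norm_eq_one_iff.mp (by decide)) _ _).mpr (coprime_intCast h.symm)
  have h2 := h1.add_mul_right_left 1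
  rwa [one_mul, add_comm, ← mk_eq] at h2

/-- The symbol of the real part. -/
theorem symbol4_re {β : ℤ[i]} (hβ : IsPrimary β) (h : IsCoprime β.re β.im) :
    symbol4 β (β.re : ℤ[i]) = (-1) ^ (signBit β.re * normExp β + octExp β.re) := by
  have ho := isOdd_intCast.mpr (re_odd hβ)
  rw [symbol4_intCast_signed hβ (re_odd hβ) (coprime_re h), pow_add, symbol4_congr ho (y := (β.im : ℤ[i]) * iu)
    ⟨1, by rw [mul_one]; ext <;> simp⟩, symbol4_mul_right ho, symbol4_intCast_intCast (re_odd hβ) h, one_mul,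
    symbol4_intCast_I (re_odd hβ)]

theorem parity_identity {α β : ℤ[i]} (hα : IsPrimary α) (hβ : IsPrimary β) :
    let N := α.re * β.re + α.im * β.im
    (((signBit N * normExp β + signBit N * normExp α + octExp N) +
      ((signBit β.re * normExp β + octExp β.re) + (signBit α.re * normExp α + octExp α.re)) : ℕ) : ZMod 2) =
        ((normExp α * normExp β : ℕ) : ZMod 2) := by
  intro N
  have ha := re_odd hα
  have hc := re_odd hβ
  obtain ⟨A, hA⟩ := Int.dvd_of_emod_eq_zero hα.1
  obtain ⟨B, hB⟩ := Int.dvd_of_emod_eq_zero hβ.1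
  have hNdef : N = α.re * β.re + 4 * (A * B) := by simp only [N, hA, hB]; ring
  have hN : N % 2 = 1 := by
    rw [hNdef, Int.add_emod, Int.mul_emod, ha, hc]
    omega
  have hS : (signBit N : ZMod 2) = signBit α.re + signBit β.re := by
    rw [← Nat.cast_add, ZMod.natCast_eq_natCast_iff']
    have h4 : N % 4 = (α.re % 4 * (β.re % 4)) % 4 := by
      rw [hNdef, ← Int.mul_emod]
      omega
    unfold signBit
    rcases (show α.re % 4 = 1 ∨ α.re % 4 = 3 by omega) with e | e <;>
      rcases (show β.re % 4 = 1 ∨ β.re % 4 = 3 by omega) with e' | e' <;> rw [e, e'] at h4 <;>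
        simp [h4, e, e']
  have hE : (octExp N : ZMod 2) = octExp α.re + octExp β.re + (A : ZMod 2) * B := by
    have h1 : (octExp N : ℤ) = 8 * (octExp α.re * octExp β.re) + octExp α.re + octExp β.re +
        α.re * β.re * (A * B) + 2 * ((A * B) * (A * B)) := by
      refine mul_left_cancel₀ (show (8 : ℤ) ≠ 0 by norm_num) ?_
      have e1 := octExp_spec ha
      have e2 := octExp_spec hc
      have e3 := octExp_spec hN
      rw [hNdef] at e3 ⊢
      linear_combination e3 - (8 * (octExp β.re : ℤ) + 1) * e1 - (α.re * α.re) * e2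
    have h2 : (2 : ZMod 2) = 0 := rfl
    have h8 : (8 : ZMod 2) = 0 := rfl
    have h3 := congrArg (Int.cast : ℤ → ZMod 2) h1
    push_cast at h3
    rw [zmod_two_cast (x := α.re) (y := 1) (by omega), zmod_two_cast (x := β.re) (y := 1) (by omega),
      h2, h8, Int.cast_one] at h3
    linear_combination h3
  push_cast
  rw [hS, hE, cast_signBit hα, cast_signBit hβ, cast_normExp hα, cast_normExp hβ, hA, hB,
    show (2 * A) / 2 = A by omega, show (2 * B) / 2 = B by omega]
  generalize (A : ZMod 2) = x, (B : ZMod 2) = y, (octExp α.re : ZMod 2) = u, (octExp β.re : ZMod 2) = v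
  revert x y u v
  decide

/-- The law for primitive elements. -/
theorem reciprocity_primitive {α β : ℤ[i]} (hα : IsPrimary α) (hβ : IsPrimary β) (h1 : IsCoprime α.re α.im)
    (h2 : IsCoprime β.re β.im) (h : IsCoprime α β) :
    symbol4 β α = (-1) ^ (normExp α * normExp β) * symbol4 α β := by
  set N := α.re * β.re + α.im * β.im with hNdef
  have hoα := isOdd_of_isPrimary hα
  have hoβ := isOdd_of_isPrimary hβ
  have idβ : (β.re : ℤ[i]) * α - (N : ℤ[i]) = β * ((α.im : ℤ[i]) * iu) := by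
    ext <;> simp [hNdef]; ring
  have idα : (α.re : ℤ[i]) * β - (N : ℤ[i]) = α * ((β.im : ℤ[i]) * iu) := by
    ext <;> simp [hNdef]
  have idN : β * star α - ((α.re * β.im - α.im * β.re : ℤ) : ℤ[i]) * iu = (N : ℤ[i]) * 1 := by
    ext <;> simp [hNdef] <;> ring
  have hcβ : IsCoprime β (N : ℤ[i]) := by
    have := (h.symm.mul_right (coprime_re h2)).add_mul_left_right (-((α.im : ℤ[i]) * iu))
    rwa [show α * (β.re : ℤ[i]) + β * -((α.im : ℤ[i]) * iu) = (N : ℤ[i]) by linear_combination idβ] at this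
  have hcα : IsCoprime α (N : ℤ[i]) := by
    have := (h.mul_right (coprime_re h1)).add_mul_left_right (-((β.im : ℤ[i]) * iu))
    rwa [show β * (α.re : ℤ[i]) + α * -((β.im : ℤ[i]) * iu) = (N : ℤ[i]) by linear_combination idα] at this
  have hNo : N % 2 = 1 := by
    have ha := re_odd hα
    have hc := re_odd hβ
    rw [hNdef, Int.add_emod, Int.mul_emod, ha, hc, Int.mul_emod α.im, hα.1]
    norm_num
  have hoN := isOdd_intCast.mpr hNo
  -- the two reductions
  have eX : symbol4 β α * (-1) ^ (signBit β.re * normExp β + octExp β.re) =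
      (-1) ^ (signBit N * normExp β) * symbol4 (N : ℤ[i]) β := by
    rw [← symbol4_re hβ h2, ← symbol4_mul_right hoβ, symbol4_congr hoβ (x := α * (β.re : ℤ[i])) (y := (N : ℤ[i]))
      ⟨_, by rw [mul_comm α]; exact idβ⟩, symbol4_intCast_signed hβ hNo hcβ]
  have eY : symbol4 α β * (-1) ^ (signBit α.re * normExp α + octExp α.re) =
      (-1) ^ (signBit N * normExp α) * symbol4 (N : ℤ[i]) α := by
    rw [← symbol4_re hα h1, ← symbol4_mul_right hoα, symbol4_congr hoα (x := β * (α.re : ℤ[i])) (y := (N : ℤ[i]))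
      ⟨_, by rw [mul_comm β]; exact idα⟩, symbol4_intCast_signed hα hNo hcα]
  have eN : symbol4 (N : ℤ[i]) β * star (symbol4 (N : ℤ[i]) α) = (-1) ^ octExp N := by
    rw [← symbol4_star hoN, star_intCast, ← symbol4_mul_right hoN, symbol4_congr hoN ⟨1, idN⟩,
      symbol4_mul_right hoN, symbol4_intCast_I hNo, symbol4_intCast_intCast hNo, one_mul]
    have hstar : IsCoprime (star α) (N : ℤ[i]) := by
      simpa [starRingEnd_apply] using hcα.map (starRingEnd ℤ[i])
    have h3 : IsCoprime (N : ℤ[i]) (β * star α) := hcβ.symm.mul_right hstar.symm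
    have h4 := h3.add_mul_left_right (-1)
    rw [show β * star α + (N : ℤ[i]) * (-1) = ((α.re * β.im - α.im * β.re : ℤ) : ℤ[i]) * iu by
      linear_combination idN] at h4
    exact isCoprime_of_intCast h4.of_mul_right_left
  have hs : ∀ n : ℕ, star ((-1 : ℤ[i]) ^ n) = (-1) ^ n := fun n => by rw [star_pow, star_neg, star_one]
  have eY' := congrArg (star : ℤ[i] → ℤ[i]) eY
  rw [star_mul', hs, star_mul', hs] at eY'
  have hsq : ∀ n : ℕ, ((-1 : ℤ[i]) ^ n) * (-1) ^ n = 1 := fun n => by rw [← mul_pow, neg_one_mul, neg_neg, one_pow]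
  set k := (signBit β.re * normExp β + octExp β.re) + (signBit α.re * normExp α + octExp α.re) with hk
  set l := signBit N * normExp β + signBit N * normExp α + octExp N with hl
  have e : symbol4 β α * star (symbol4 α β) = (-1) ^ (l + k) := by
    have e' : symbol4 β α * star (symbol4 α β) * (-1) ^ k = (-1) ^ l := by
      rw [hk, hl, pow_add, pow_add ((-1 : ℤ[i])) (signBit N * normExp β + signBit N * normExp α),
        pow_add ((-1 : ℤ[i])) (signBit N * normExp β), ← eN]
      linear_combination (star (symbol4 α β) * (-1) ^ (signBit α.re * normExp α + octExp α.re)) * eX +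
        ((-1) ^ (signBit N * normExp β) * symbol4 (N : ℤ[i]) β) * eY'
    rw [pow_add, ← e', mul_assoc, hsq, mul_one]
  have hY := symbol4_mul_star_self hoα h
  rw [← neg_one_pow_congr (parity_identity hα hβ), ← hl, ← hk, ← e]
  linear_combination (-(symbol4 β α)) * hY

/-- The content of a primary element. -/
theorem exists_content {α : ℤ[i]} (hα : IsPrimary α) :
    ∃ (g : ℤ) (α' : ℤ[i]), g % 4 = 1 ∧ IsPrimary α' ∧ IsCoprime α'.re α'.im ∧ α = (g : ℤ[i]) * α' := by
  obtain ⟨x, y, hxy, e1, e2⟩ := Int.exists_gcd_one (show 0 < Int.gcd α.re α.im from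
    Int.gcd_pos_of_ne_zero_left _ (by have := re_odd hα; omega))
  obtain ⟨g, hg⟩ : ∃ g : ℤ, g = (Int.gcd α.re α.im : ℤ) := ⟨_, rfl⟩
  rw [← hg] at e1 e2
  have hgo : g % 2 = 1 := by
    have := re_odd hα
    rcases Int.emod_two_eq_zero_or_one g with h | h
    · rw [e1, Int.mul_emod, h] at this
      simp at this
    · exact h
  obtain ⟨g', ε, hg4, hε, rfl⟩ : ∃ g' ε : ℤ, g' % 4 = 1 ∧ (ε = 1 ∨ ε = -1) ∧ g = g' * ε := by
    rcases (show g % 4 = 1 ∨ g % 4 = 3 by omega) with h | h
    exacts [⟨g, 1, h, Or.inl rfl, by ring⟩, ⟨-g, -1, by omega, Or.inr rfl, by ring⟩]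
  have he : α = (g' : ℤ[i]) * ⟨x * ε, y * ε⟩ := by
    ext <;> simp [e1, e2] <;> ring
  refine ⟨g', _, hg4, IsPrimary.of_mul (isPrimary_intCast hg4) (he ▸ hα), ?_, he⟩
  have hc := Int.isCoprime_iff_gcd_eq_one.mpr hxy
  rcases hε with rfl | rfl
  · simpa using hc
  · simpa using hc.neg_neg

/-- The law when the second element is primitive extends to all first elements. -/
theorem reciprocity_extend {β : ℤ[i]} (hβ : IsPrimary β)
    (H : ∀ α : ℤ[i], IsPrimary α → IsCoprime α.re α.im → IsCoprime α β →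
      symbol4 β α = (-1) ^ (normExp α * normExp β) * symbol4 α β)
    {α : ℤ[i]} (hα : IsPrimary α) (h : IsCoprime α β) :
    symbol4 β α = (-1) ^ (normExp α * normExp β) * symbol4 α β := by
  obtain ⟨g, α', hg, hα', hc, rfl⟩ := exists_content hα
  have hgo := isOdd_intCast.mpr (by omega : g % 2 = 1)
  have hpar : ((normExp ((g : ℤ[i]) * α') * normExp β : ℕ) : ZMod 2) = ((normExp α' * normExp β : ℕ) : ZMod 2) := by
    rw [Nat.cast_mul, Nat.cast_mul, cast_normExp hα, cast_normExp hα']
    congr 1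
    refine zmod_two_cast ?_
    obtain ⟨A, hA⟩ := Int.dvd_of_emod_eq_zero hα'.1
    rw [show ((g : ℤ[i]) * α').im = 2 * (g * A) by simp [hA]; ring, hA, show 2 * (g * A) / 2 = g * A by omega,
      show 2 * A / 2 = A by omega, Int.mul_emod, show g % 2 = 1 by omega, one_mul, Int.emod_emod]
  rw [symbol4_mul_left hgo (isOdd_of_isPrimary hα'), symbol4_mul_right (isOdd_of_isPrimary hβ),
    symbol4_intCast_comm hg hβ h.of_mul_left_left.symm, H α' hα' hc h.of_mul_left_right, neg_one_pow_congr hpar]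
  ring

/-- **The law of biquadratic reciprocity.** -/
theorem biquadratic_reciprocity {α β : ℤ[i]} (hα : IsPrimary α) (hβ : IsPrimary β) :
    symbol4 β α = (-1) ^ (normExp α * normExp β) * symbol4 α β := by
  by_cases h : IsCoprime α β
  · refine reciprocity_extend hβ (fun γ hγ hc hγβ => ?_) hα h
    have h2 := reciprocity_extend (β := γ) hγ
      (fun δ hδ hd hδγ => reciprocity_primitive hδ hγ hd hc hδγ) hβ hγβ.symm
    rw [h2, ← mul_assoc, ← pow_add, mul_comm (normExp β), ← two_mul, pow_mul, neg_one_sq, one_pow, one_mul]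
  · rw [symbol4_eq_zero (isOdd_of_isPrimary hβ) (fun h' => h h'.symm),
      symbol4_eq_zero (isOdd_of_isPrimary hα) h, mul_zero]

end FA.Biquadratic
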