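import Fermat.Agent.Biquadratic.Prime
import Fermat.Agent.CM.Quartic.Coeff

/-!
# Primary elements and primary primes

Every odd element has exactly one primary associate. The primary primes are the `-χ(-1) J(χ, χ)` of the primes
`p ≡ 1 (mod 4)` and the `-q` of the primes `q ≡ 3 (mod 4)`.
-/

set_option autoImplicit false
set_option linter.unusedSectionVars false

noncomputable section

namespace FA.Biquadratic

open FA.CM.Quartic

local notation "ℤ[i]" => GaussianInt

theorem isOdd_of_isPrimary {α : ℤ[i]} (h : IsPrimary α) : IsOdd α := by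
  have := h.norm_mod_four
  rw [IsOdd]
  omega

theorem isOdd_star {α : ℤ[i]} : IsOdd (star α) ↔ IsOdd α := by
  rw [IsOdd, IsOdd, Zsqrtd.norm_conj]

theorem isPrimary_star {α : ℤ[i]} (h : IsPrimary α) : IsPrimary (star α) := by
  obtain ⟨h1, h2⟩ := h
  rw [IsPrimary, Zsqrtd.re_star, Zsqrtd.im_star]
  omega

theorem isUnit_cases {u : ℤ[i]} (h : IsUnit u) : u = 1 ∨ u = ⟨0, 1⟩ ∨ u = -1 ∨ u = ⟨0, -1⟩ := by
  have hn : u.norm.natAbs = 1 := Zsqrtd.norm_eq_one_iff.mpr h
  have hn' : u.norm = 1 := by have := GaussianInt.norm_nonneg u; omega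
  obtain ⟨a, b⟩ := u
  rw [Zsqrtd.norm_def] at hn'
  simp only at hn'
  obtain ⟨ha1, ha2⟩ : -1 ≤ a ∧ a ≤ 1 :=
    ⟨by nlinarith [mul_self_nonneg b], by nlinarith [mul_self_nonneg b]⟩
  obtain ⟨hb1, hb2⟩ : -1 ≤ b ∧ b ≤ 1 :=
    ⟨by nlinarith [mul_self_nonneg a], by nlinarith [mul_self_nonneg a]⟩
  interval_cases a <;> interval_cases b <;> simp_all [Zsqrtd.ext_iff]

theorem pow_four_of_isUnit {u : ℤ[i]} (h : IsUnit u) : u ^ 4 = 1 := by
  rcases isUnit_cases h with rfl | rfl | rfl | rfl <;> decide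

/-- A primary unit is `1`. -/
theorem eq_one_of_isUnit {u : ℤ[i]} (h : IsPrimary u) (hu : IsUnit u) : u = 1 := by
  rcases isUnit_cases hu with rfl | rfl | rfl | rfl <;> simp [IsPrimary] at h ⊢

/-- The primary associate is unique. -/
theorem eq_of_associated {α β : ℤ[i]} (hα : IsPrimary α) (hβ : IsPrimary β) (h : Associated α β) : α = β := by
  obtain ⟨u, rfl⟩ := h
  rw [eq_one_of_isUnit (IsPrimary.of_mul hα hβ) u.isUnit, mul_one]

/-- An odd element has a primary associate. -/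
theorem exists_isPrimary_associated {α : ℤ[i]} (h : IsOdd α) : ∃ β, IsPrimary β ∧ Associated α β := by
  have key : ∀ u : ℤ[i], IsUnit u → Associated α (α * u) := fun u hu => ⟨hu.unit, rfl⟩
  obtain ⟨a, b⟩ := α
  rw [IsOdd, Zsqrtd.norm_def] at h
  simp only at h
  have hab : (a * a + b * b) % 2 = 1 := by rw [← h]; ring_nf
  have hu1 : IsUnit (⟨0, 1⟩ : ℤ[i]) := Zsqrtd.norm_eq_one_iff.mp (by decide)
  have hu2 : IsUnit (⟨0, -1⟩ : ℤ[i]) := Zsqrtd.norm_eq_one_iff.mp (by decide)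
  have sq : ∀ x : ℤ, (x * x) % 2 = x % 2 := fun x => by
    rcases Int.emod_two_eq_zero_or_one x with e | e <;> simp [Int.mul_emod, e]
  have := sq a
  have := sq b
  rcases Int.emod_two_eq_zero_or_one b with hb | hb
  · by_cases h4 : (a + b) % 4 = 1
    · exact ⟨_, ⟨hb, h4⟩, Associated.refl _⟩
    · refine ⟨_, ?_, key (-1) (isUnit_one.neg)⟩
      rw [mul_neg, mul_one, IsPrimary, Zsqrtd.re_neg, Zsqrtd.im_neg]
      simp only
      omega
  · by_cases h4 : (-b + a) % 4 = 1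
    · refine ⟨_, ?_, key _ hu1⟩
      rw [IsPrimary, Zsqrtd.re_mul, Zsqrtd.im_mul]
      simp only
      omega
    · refine ⟨_, ?_, key _ hu2⟩
      rw [IsPrimary, Zsqrtd.re_mul, Zsqrtd.im_mul]
      simp only
      omega

theorem symbolPrime4_associated {π π' : ℤ[i]} (hπ : Prime π) (ho : IsOdd π) (h : Associated π π') (x : ℤ[i]) :
    symbolPrime4 π' x = symbolPrime4 π x := by
  have ho' : IsOdd π' := by rwa [IsOdd, ← norm_eq_of_associated h]
  by_cases hx : π ∣ x
  · rw [symbolPrime4_eq_zero hπ ho hx, symbolPrime4_eq_zero (h.prime hπ) ho' (h.dvd_iff_dvd_left.mp hx)]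
  obtain ⟨h1, h2⟩ := symbolPrime4_spec hπ ho hx
  refine symbolPrime4_eq (h.prime hπ) ho' h1 ?_
  rw [← norm_eq_of_associated h]
  exact h.dvd_iff_dvd_left.mp h2

theorem prime_star {π : ℤ[i]} (hπ : Prime π) : Prime (star π) := by
  have := (MulEquiv.prime_iff (starRingAut (R := ℤ[i])).toMulEquiv).mpr hπ
  simpa using this

/-- Conjugation. -/
theorem symbolPrime4_star {π : ℤ[i]} (hπ : Prime π) (ho : IsOdd π) (x : ℤ[i]) :
    symbolPrime4 (star π) (star x) = star (symbolPrime4 π x) := by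
  have hdvd : ∀ {y z : ℤ[i]}, y ∣ z → star y ∣ star z := fun {y z} h => map_dvd (starRingEnd ℤ[i]) h
  have ho' := isOdd_star.mpr ho
  by_cases hx : π ∣ x
  · rw [symbolPrime4_eq_zero hπ ho hx, symbolPrime4_eq_zero (prime_star hπ) ho' (hdvd hx), star_zero]
  obtain ⟨h1, h2⟩ := symbolPrime4_spec hπ ho hx
  refine symbolPrime4_eq (prime_star hπ) ho' (by rw [← star_pow, h1, star_one]) ?_
  rw [Zsqrtd.norm_conj, ← star_pow, ← star_sub]
  exact hdvd h2

/-- A unit's symbol. -/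
theorem symbolPrime4_unit {π : ℤ[i]} (hπ : Prime π) (ho : IsOdd π) {u : ℤ[i]} (hu : u ^ 4 = 1) :
    symbolPrime4 π u = u ^ ((π.norm.natAbs - 1) / 4) :=
  symbolPrime4_eq hπ ho (by rw [← pow_mul, mul_comm, pow_mul, hu, one_pow]) (by rw [sub_self]; exact dvd_zero _)

section split

variable {p : ℕ} [hp : Fact p.Prime] {j : ZMod p} (hj : j * j = -1) (hp2 : p ≠ 2)

theorem prime_primaryPrime : Prime (primaryPrime hj hp2) := by
  refine UniqueFactorizationMonoid.irreducible_iff_prime.mp (irreducible_iff.mpr ⟨fun h => ?_, fun x y h => ?_⟩)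
  · have := Zsqrtd.norm_eq_one_iff.mpr h
    rw [norm_primaryPrime, Int.natAbs_natCast] at this
    exact hp.out.ne_one this
  · have h1 := congrArg (fun z : ℤ[i] => z.norm.natAbs) h
    simp only [norm_primaryPrime, Zsqrtd.norm_mul, Int.natAbs_mul, Int.natAbs_natCast] at h1
    rcases (Nat.prime_mul_iff.mp (h1 ▸ hp.out)) with ⟨-, h2⟩ | ⟨-, h2⟩
    · exact Or.inr (Zsqrtd.norm_eq_one_iff.mp h2)
    · exact Or.inl (Zsqrtd.norm_eq_one_iff.mp h2)

theorem isOdd_primaryPrime : IsOdd (primaryPrime hj hp2) :=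
  isOdd_of_isPrimary (isPrimary_primaryPrime hj hp2)

theorem isOdd_natCast_prime {q : ℕ} [hq : Fact q.Prime] (hq2 : q ≠ 2) : IsOdd (q : ℤ[i]) := by
  rw [← Int.cast_natCast, isOdd_intCast]
  have := hq.out.eq_two_or_odd
  omega

/-- The kernel of `i ↦ j` is `(π)`. -/
theorem evalI_eq_zero_iff (x : ℤ[i]) : evalI hj x = 0 ↔ primaryPrime hj hp2 ∣ x := by
  refine ⟨fun hx => ?_, fun ⟨y, hy⟩ => by rw [hy, map_mul, evalI_primaryPrime, zero_mul]⟩
  set π := primaryPrime hj hp2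
  have := isMaximal_span (prime_primaryPrime hj hp2)
  have hne : RingHom.ker (evalI hj) ≠ ⊤ := RingHom.ker_ne_top _
  have hle : Ideal.span {π} ≤ RingHom.ker (evalI hj) := by
    rw [Ideal.span_singleton_le_iff_mem, RingHom.mem_ker]
    exact evalI_primaryPrime hj hp2
  rw [← Ideal.mem_span_singleton, this.eq_of_le hne hle, RingHom.mem_ker]
  exact hx

theorem exponent_primaryPrime : ((primaryPrime hj hp2).norm.natAbs - 1) / 4 = (p - 1) / 4 := by
  rw [norm_primaryPrime, Int.natAbs_natCast]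

/-- **The symbol at a split prime is the quartic character.** -/
theorem symbolPrime4_primaryPrime (x : ℤ[i]) :
    symbolPrime4 (primaryPrime hj hp2) x = quarticChar hj hp2 (evalI hj x) := by
  have hπ := prime_primaryPrime hj hp2
  have ho := isOdd_primaryPrime hj hp2
  by_cases hx : primaryPrime hj hp2 ∣ x
  · rw [symbolPrime4_eq_zero hπ ho hx, (evalI_eq_zero_iff hj hp2 x).mpr hx, MulChar.map_zero]
  have hx' : evalI hj x ≠ 0 := fun e => hx ((evalI_eq_zero_iff hj hp2 x).mp e)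
  refine symbolPrime4_eq hπ ho ?_ ?_
  · rw [show 4 = 2 * 2 from rfl, pow_mul, quarticChar_sq, ← Int.cast_pow, quadraticChar_sq_one hx', Int.cast_one]
  · rw [← evalI_eq_zero_iff hj hp2, map_sub, map_pow, evalI_quarticChar, exponent_primaryPrime, sub_self]

theorem symbolPrime4_primaryPrime_intCast (d : ℤ) :
    symbolPrime4 (primaryPrime hj hp2) (d : ℤ[i]) = quarticChar hj hp2 (d : ZMod p) := by
  rw [symbolPrime4_primaryPrime, map_intCast]

theorem natCast_eq_primaryPrime_mul : (p : ℤ[i]) = primaryPrime hj hp2 * star (primaryPrime hj hp2) :=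
  (primaryPrime_mul_star hj hp2).symm

end split

theorem prime_natCast {q : ℕ} [hq : Fact q.Prime] (hq3 : q % 4 = 3) : Prime (q : ℤ[i]) :=
  GaussianInt.prime_of_nat_prime_of_mod_four_eq_three q hq3

/-- **A rational integer is a fourth power residue modulo an inert prime.** -/
theorem symbolPrime4_natCast_intCast {q : ℕ} [hq : Fact q.Prime] (hq3 : q % 4 = 3) {d : ℤ} (hd : ¬ (q : ℤ) ∣ d) :
    symbolPrime4 (q : ℤ[i]) (d : ℤ[i]) = 1 := by
  refine symbolPrime4_eq (prime_natCast hq3) (isOdd_natCast_prime (by omega)) (one_pow 4) ?_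
  rw [Zsqrtd.norm_natCast, Int.natAbs_mul, Int.natAbs_natCast]
  obtain ⟨k, rfl⟩ : ∃ k, q = 4 * k + 3 := ⟨q / 4, by omega⟩
  rw [show ((4 * k + 3) * (4 * k + 3) - 1) / 4 = (4 * k + 3 - 1) * (k + 1) by
    rw [show (4 * k + 3) * (4 * k + 3) = 4 * ((4 * k + 3 - 1) * (k + 1)) + 1 by
      rw [show 4 * k + 3 - 1 = 4 * k + 2 by omega]; ring]
    omega]
  rw [← Int.cast_natCast (R := ℤ[i]), ← Int.cast_pow, show (1 : ℤ[i]) = ((1 : ℤ) : ℤ[i]) from Int.cast_one.symm,
    ← Int.cast_sub, Zsqrtd.intCast_dvd_intCast,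
    ← ZMod.intCast_zmod_eq_zero_iff_dvd, Int.cast_sub, Int.cast_pow, Int.cast_one, pow_mul,
    ZMod.pow_card_sub_one_eq_one (fun e => hd ((ZMod.intCast_zmod_eq_zero_iff_dvd _ _).mp e)), one_pow, sub_self]

/-- **The primary primes.** -/
theorem primaryPrime_cases {π : ℤ[i]} (hπ : Prime π) (hp : IsPrimary π) :
    (∃ (p : ℕ) (_ : Fact p.Prime) (j : ZMod p) (hj : j * j = -1) (hp2 : p ≠ 2), π = primaryPrime hj hp2) ∨
      ∃ (q : ℕ) (_ : Fact q.Prime), q % 4 = 3 ∧ π = -(q : ℤ[i]) := by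
  rcases prime_cases hπ (isOdd_of_isPrimary hp) with ⟨p, _, j, hj, hp2, -, hker⟩ | ⟨q, _, hq3, hass⟩
  · refine Or.inl ⟨p, ‹_›, j, hj, hp2, eq_of_associated hp (isPrimary_primaryPrime hj hp2) ?_⟩
    exact hπ.associated_of_dvd (prime_primaryPrime hj hp2) ((hker _).mp (evalI_primaryPrime hj hp2))
  · refine Or.inr ⟨q, ‹_›, hq3, eq_of_associated hp ?_ hass.neg_right⟩
    rw [← Int.cast_natCast, ← Int.cast_neg]
    exact isPrimary_intCast (by omega)

/-- Induction on primary elements. -/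
theorem primary_induction {P : ℤ[i] → Prop} (one : P 1)
    (mul : ∀ π β, Prime π → IsPrimary π → IsPrimary β → P β → P (π * β)) {α : ℤ[i]} (hα : IsPrimary α) : P α := by
  suffices h : ∀ x β : ℤ[i], Associated x β → IsPrimary β → P β from h α α (Associated.refl _) hα
  intro x
  induction x using UniqueFactorizationMonoid.induction_on_prime with
  | h₁ => exact fun β h hβ => absurd ((associated_zero_iff_eq_zero β).mp h.symm) hβ.ne_zero
  | h₂ x hx => exact fun β h hβ => (eq_one_of_isUnit hβ (h.isUnit hx)).symm ▸ one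
  | h₃ x p hx hp ih =>
    intro β h hβ
    have hpβ : p ∣ β := h.dvd_iff_dvd_right.mp (dvd_mul_right p x)
    obtain ⟨π, hπ, hass⟩ := exists_isPrimary_associated (isOdd_of_dvd hpβ (isOdd_of_isPrimary hβ))
    obtain ⟨γ, rfl⟩ := hass.dvd_iff_dvd_left.mp hpβ
    have hγ := IsPrimary.of_mul hπ hβ
    exact mul π γ (hass.prime hp) hπ hγ (ih γ (h.of_mul_left hass hp.ne_zero) hγ)

end FA.Biquadratic
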