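import Fermat.Agent.CM.Quartic.Periodic
import Mathlib.NumberTheory.Zsqrtd.QuadraticReciprocity
import Mathlib.RingTheory.Ideal.Quotient.Basic

/-!
# The quartic symbol at a prime of `ℤ[i]`

The odd primes are, up to units, the primes of norm `p ≡ 1 (mod 4)`, kernels of `i ↦ j`, and the rational primes
`q ≡ 3 (mod 4)`. The residue field has `N π` elements, so `x ^ ((N π - 1) / 4)` is congruent to exactly one unit.
-/

set_option autoImplicit false
set_option linter.unusedSectionVars false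

noncomputable section

open Finset
open scoped Classical

namespace FA.Biquadratic

open FA.CM.Quartic

local notation "ℤ[i]" => GaussianInt

/-- An odd element. -/
def IsOdd (x : ℤ[i]) : Prop := x.norm % 2 = 1

theorem IsOdd.ne_zero {x : ℤ[i]} (h : IsOdd x) : x ≠ 0 := fun e => by
  rw [IsOdd, e, Zsqrtd.norm_zero] at h
  norm_num at h

theorem isOdd_mul {x y : ℤ[i]} : IsOdd (x * y) ↔ IsOdd x ∧ IsOdd y := by
  rw [IsOdd, IsOdd, IsOdd, Zsqrtd.norm_mul, Int.mul_emod]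
  rcases Int.emod_two_eq_zero_or_one x.norm with h | h <;> rcases Int.emod_two_eq_zero_or_one y.norm with h' | h' <;>
    simp [h, h']

theorem isOdd_of_dvd {x y : ℤ[i]} (h : x ∣ y) (hy : IsOdd y) : IsOdd x := by
  obtain ⟨z, rfl⟩ := h
  exact (isOdd_mul.mp hy).1

theorem norm_eq_of_associated {x y : ℤ[i]} (h : Associated x y) : x.norm = y.norm :=
  Zsqrtd.norm_eq_of_associated (by norm_num) h

theorem isOdd_intCast {n : ℤ} : IsOdd (n : ℤ[i]) ↔ n % 2 = 1 := by
  rw [IsOdd, Zsqrtd.norm_intCast, Int.mul_emod]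
  rcases Int.emod_two_eq_zero_or_one n with h | h <;> simp [h]

/-- A prime of `ℤ[i]` lies over a rational prime. -/
theorem exists_prime_dvd {π : ℤ[i]} (hπ : Prime π) : ∃ p : ℕ, p.Prime ∧ π ∣ (p : ℤ[i]) := by
  have h : π ∣ ((π.norm.natAbs : ℕ) : ℤ[i]) := by
    rw [show ((π.norm.natAbs : ℕ) : ℤ[i]) = ((π.norm.natAbs : ℤ) : ℤ[i]) from (Int.cast_natCast _).symm,
      GaussianInt.abs_natCast_norm, Zsqrtd.norm_eq_mul_conj]
    exact dvd_mul_right _ _
  have hN : π.norm.natAbs ≠ 0 := by simpa using hπ.ne_zero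
  rw [← Nat.prod_primeFactorsList hN, Nat.cast_list_prod] at h
  obtain ⟨a, ha, hdvd⟩ := hπ.dvd_prod_iff.mp h
  obtain ⟨p, hp, rfl⟩ := List.mem_map.mp ha
  exact ⟨p, Nat.prime_of_mem_primeFactorsList hp, hdvd⟩

/-- **The odd primes.** -/
theorem prime_cases {π : ℤ[i]} (hπ : Prime π) (ho : IsOdd π) :
    (∃ (p : ℕ) (_ : Fact p.Prime) (j : ZMod p) (hj : j * j = -1), p ≠ 2 ∧ π.norm = p ∧
        ∀ x : ℤ[i], evalI hj x = 0 ↔ π ∣ x) ∨
      ∃ (q : ℕ) (_ : Fact q.Prime), q % 4 = 3 ∧ Associated π (q : ℤ[i]) := by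
  obtain ⟨p, hp, hdvd⟩ := exists_prime_dvd hπ
  have := Fact.mk hp
  have hn : π.norm.natAbs ∣ p ^ 2 := by
    obtain ⟨c, hc⟩ := hdvd
    refine ⟨c.norm.natAbs, ?_⟩
    rw [← Int.natAbs_mul, ← Zsqrtd.norm_mul, ← hc, Zsqrtd.norm_natCast, Int.natAbs_mul, Int.natAbs_natCast, pow_two]
  obtain ⟨k, hk, hkn⟩ := (Nat.dvd_prime_pow hp).mp hn
  have hpos : π.norm = (π.norm.natAbs : ℕ) := (GaussianInt.abs_natCast_norm π).symm
  interval_cases k
  · exact absurd (Zsqrtd.norm_eq_one_iff.mp (by simpa using hkn)) hπ.not_isUnit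
  · left
    rw [pow_one] at hkn
    have hp2 : p ≠ 2 := fun e => by
      rw [IsOdd, hpos, hkn, e] at ho
      norm_num at ho
    have hsum : (π.re : ZMod p) * π.re + π.im * π.im = 0 := by
      have h1 := congrArg (Int.cast : ℤ → ZMod p) (hpos.trans (congrArg _ hkn))
      rw [Zsqrtd.norm_def, Int.cast_sub, Int.cast_mul, Int.cast_mul, Int.cast_mul, Int.cast_neg, Int.cast_one,
        Int.cast_natCast, ZMod.natCast_self] at h1
      linear_combination h1
    have him : (π.im : ZMod p) ≠ 0 := fun e => by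
      have hre : (π.re : ZMod p) = 0 := mul_self_eq_zero.mp (by rw [e, mul_zero, add_zero] at hsum; exact hsum)
      rw [ZMod.intCast_zmod_eq_zero_iff_dvd] at e hre
      obtain ⟨r, hr⟩ := hre
      obtain ⟨s, hs⟩ := e
      have h1 : (p : ℤ) * ((r * r + s * s) * p) = p * 1 := by
        rw [mul_one]
        conv_rhs => rw [show (p : ℤ) = π.norm by rw [hpos, hkn], Zsqrtd.norm_def, hr, hs]
        ring
      have h2 := mul_left_cancel₀ (by exact_mod_cast hp.ne_zero) h1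
      exact hp.ne_one (Int.natCast_inj.mp ((Int.eq_one_of_mul_eq_one_left (Int.natCast_nonneg p) h2).trans
        Nat.cast_one.symm))
    obtain ⟨j, hj, hev⟩ : ∃ (j : ZMod p) (_ : j * j = -1), (π.re : ZMod p) + π.im * j = 0 := by
      refine ⟨-(π.re : ZMod p) / π.im, ?_, by field_simp; ring⟩
      field_simp
      linear_combination hsum
    refine ⟨p, ‹_›, j, hj, hp2, hkn ▸ hpos, fun x => ⟨fun hx => ?_, fun ⟨y, hy⟩ => ?_⟩⟩
    · rw [evalI_apply] at hx
      obtain ⟨y, hy⟩ : (p : ℤ) ∣ x.re * π.im - x.im * π.re := by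
        rw [← ZMod.intCast_zmod_eq_zero_iff_dvd]
        push_cast
        linear_combination (π.im : ZMod p) * hx - (x.im : ZMod p) * hev
      have hi : π ∣ ((π.im : ℤ) : ℤ[i]) * x := by
        rw [show ((π.im : ℤ) : ℤ[i]) * x = (x.im : ℤ[i]) * π + ((x.re * π.im - x.im * π.re : ℤ) : ℤ[i]) by
          ext <;> simp <;> ring, hy, Int.cast_mul, Int.cast_natCast]
        exact dvd_add (dvd_mul_left _ _) (hdvd.mul_right _)
      refine (hπ.dvd_mul.mp hi).resolve_left fun hi' => him ?_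
      obtain ⟨c, hc⟩ := hi'
      have h1 := congrArg Zsqrtd.norm hc
      rw [Zsqrtd.norm_intCast, Zsqrtd.norm_mul, hpos, hkn] at h1
      exact mul_self_eq_zero.mp (by
        rw [← Int.cast_mul, h1, Int.cast_mul, Int.cast_natCast, ZMod.natCast_self, zero_mul])
    · rw [hy, map_mul, evalI_apply, hev, zero_mul]
  · right
    obtain ⟨c, hc⟩ := hdvd
    have hc1 : c.norm.natAbs = 1 := by
      have h1 := congrArg (fun z : ℤ[i] => z.norm.natAbs) hc
      simp only [Zsqrtd.norm_natCast, Zsqrtd.norm_mul, Int.natAbs_mul, Int.natAbs_natCast, hkn, pow_two] at h1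
      exact (mul_eq_left₀ (Nat.mul_ne_zero hp.ne_zero hp.ne_zero)).mp h1.symm
    have hass : Associated π (p : ℤ[i]) := ⟨(Zsqrtd.norm_eq_one_iff.mp hc1).unit, hc.symm⟩
    exact ⟨p, ‹_›, GaussianInt.mod_four_eq_three_of_nat_prime_of_prime p (hass.prime hπ), hass⟩

theorem natAbs_norm_mod_four {π : ℤ[i]} (ho : IsOdd π) : π.norm.natAbs % 4 = 1 := by
  have h := GaussianInt.norm_nonneg π
  rw [IsOdd, Zsqrtd.norm_def] at ho
  rw [Zsqrtd.norm_def] at h ⊢
  have sq : ∀ a : ℤ, (a * a) % 4 = 0 ∨ (a * a) % 4 = 1 := fun a => by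
    rcases Int.emod_two_eq_zero_or_one a with e | e
    · obtain ⟨c, rfl⟩ : ∃ c, a = 2 * c := ⟨a / 2, by omega⟩
      left; ring_nf; omega
    · obtain ⟨c, rfl⟩ : ∃ c, a = 2 * c + 1 := ⟨a / 2, by omega⟩
      right; ring_nf; omega
  have h1 := sq π.re
  have h2 := sq π.im
  rw [show π.re * π.re - -1 * π.im * π.im = π.re * π.re + π.im * π.im by ring] at h ho ⊢
  omega

/-- The residue field has `N π` elements. -/
theorem natCard_quotient {π : ℤ[i]} (hπ : Prime π) (ho : IsOdd π) :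
    Nat.card (ℤ[i] ⧸ Ideal.span {π}) = π.norm.natAbs := by
  rcases prime_cases hπ ho with ⟨p, _, j, hj, -, hn, hker⟩ | ⟨q, hq, hq3, hass⟩
  · have hk : Ideal.span {π} = RingHom.ker (evalI hj) := Ideal.ext fun x => by
      rw [Ideal.mem_span_singleton, RingHom.mem_ker, hker]
    rw [Nat.card_congr ((Ideal.quotEquivOfEq hk).trans (RingHom.quotientKerEquivOfSurjective fun z =>
      ⟨(z.val : ℤ[i]), by rw [map_natCast, ZMod.natCast_zmod_val]⟩)).toEquiv, Nat.card_zmod, hn, Int.natAbs_natCast]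
  · rw [Ideal.span_singleton_eq_span_singleton.mpr hass, norm_eq_of_associated hass, Zsqrtd.norm_natCast,
      Int.natAbs_mul, Int.natAbs_natCast]
    let f : Fin q × Fin q → ℤ[i] ⧸ Ideal.span {(q : ℤ[i])} := fun v =>
      Ideal.Quotient.mk _ ⟨(v.1 : ℕ), (v.2 : ℕ)⟩
    have hf : Function.Bijective f := by
      constructor
      · intro v w e
        have e' := Ideal.mem_span_singleton.mp (Ideal.Quotient.eq.mp e)
        rw [show (q : ℤ[i]) = ((q : ℤ) : ℤ[i]) from (Int.cast_natCast q).symm, Zsqrtd.intCast_dvd] at e'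
        simp only [Zsqrtd.re_sub, Zsqrtd.im_sub] at e'
        have h : ∀ r s : Fin q, (q : ℤ) ∣ (r : ℕ) - ((s : ℕ) : ℤ) → r = s := fun r s hd => Fin.ext (by
          have hr := r.isLt; have hs := s.isLt
          have := Int.eq_zero_of_abs_lt_dvd hd (by rw [abs_lt]; omega)
          omega)
        exact Prod.ext (h _ _ e'.1) (h _ _ e'.2)
      · intro z
        obtain ⟨x, rfl⟩ := Ideal.Quotient.mk_surjective z
        have hq0 : (0 : ℤ) < q := by exact_mod_cast hq.out.pos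
        refine ⟨(⟨(x.re % q).toNat, ?_⟩, ⟨(x.im % q).toNat, ?_⟩), Ideal.Quotient.eq.mpr ?_⟩
        · have := Int.emod_lt_of_pos x.re hq0; omega
        · have := Int.emod_lt_of_pos x.im hq0; omega
        rw [Ideal.mem_span_singleton, show (q : ℤ[i]) = ((q : ℤ) : ℤ[i]) from (Int.cast_natCast q).symm,
          Zsqrtd.intCast_dvd]
        simp only [Zsqrtd.re_sub, Zsqrtd.im_sub, Int.toNat_of_nonneg (Int.emod_nonneg _ hq0.ne')]
        exact ⟨⟨-(x.re / q), by rw [Int.emod_def]; ring⟩, ⟨-(x.im / q), by rw [Int.emod_def]; ring⟩⟩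
    rw [← Nat.card_eq_of_bijective f hf, Nat.card_prod, Nat.card_eq_fintype_card, Fintype.card_fin]

theorem finite_quotient {π : ℤ[i]} (hπ : Prime π) (ho : IsOdd π) : Finite (ℤ[i] ⧸ Ideal.span {π}) :=
  Nat.finite_of_card_ne_zero (by rw [natCard_quotient hπ ho]; simpa using hπ.ne_zero)

theorem isMaximal_span {π : ℤ[i]} (hπ : Prime π) : (Ideal.span {π}).IsMaximal :=
  PrincipalIdealRing.isMaximal_of_irreducible hπ.irreducible

/-- A unit with fourth power one. -/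
theorem isQU_of_pow_four {u : ℤ[i]} (h : u ^ 4 = 1) : u = 1 ∨ u = ⟨0, 1⟩ ∨ u = -1 ∨ u = ⟨0, -1⟩ := by
  have hn : u.norm = 1 := by
    have h1 : u.norm.natAbs ^ 4 = 1 := by
      rw [← Int.natAbs_pow, show u.norm ^ 4 = (u ^ 4).norm from (map_pow Zsqrtd.normMonoidHom u 4).symm, h,
        Zsqrtd.norm_one]
      rfl
    have := GaussianInt.norm_nonneg u
    have := (pow_eq_one_iff.mp h1).resolve_right (by norm_num)
    omega
  obtain ⟨a, b⟩ := u
  rw [Zsqrtd.norm_def] at hn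
  simp only at hn
  have ha : -1 ≤ a ∧ a ≤ 1 := ⟨by nlinarith [mul_self_nonneg b], by nlinarith [mul_self_nonneg b]⟩
  have hb : -1 ≤ b ∧ b ≤ 1 := ⟨by nlinarith [mul_self_nonneg a], by nlinarith [mul_self_nonneg a]⟩
  obtain ⟨ha1, ha2⟩ := ha
  obtain ⟨hb1, hb2⟩ := hb
  interval_cases a <;> interval_cases b <;> simp_all [Zsqrtd.ext_iff]

/-- The units are distinct modulo an odd prime. -/
theorem unit_eq_of_dvd {π : ℤ[i]} (hπ : Prime π) (ho : IsOdd π) {u v : ℤ[i]} (hu : u ^ 4 = 1) (hv : v ^ 4 = 1)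
    (h : π ∣ u - v) : u = v := by
  by_contra hne
  obtain ⟨c, hc⟩ := h
  have h1 : π.norm.natAbs ∣ 4 := by
    have h2 : (u - v).norm.natAbs ∣ 4 := by
      rcases isQU_of_pow_four hu with rfl | rfl | rfl | rfl <;>
        rcases isQU_of_pow_four hv with rfl | rfl | rfl | rfl <;> first | exact absurd rfl hne | decide
    rw [hc, Zsqrtd.norm_mul, Int.natAbs_mul] at h2
    exact dvd_trans (dvd_mul_right _ _) h2
  have h4 := natAbs_norm_mod_four ho
  have := Nat.le_of_dvd (by norm_num) h1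
  have : π.norm.natAbs = 1 := by omega
  exact hπ.not_isUnit (Zsqrtd.norm_eq_one_iff.mp this)

/-- The symbol at a prime. -/
def symbolPrime4 (π x : ℤ[i]) : ℤ[i] :=
  if h : ∃ u : ℤ[i], u ^ 4 = 1 ∧ π ∣ x ^ ((π.norm.natAbs - 1) / 4) - u then h.choose else 0

variable {π : ℤ[i]} (hπ : Prime π) (ho : IsOdd π)
include hπ ho

theorem exponent_pos : 0 < (π.norm.natAbs - 1) / 4 := by
  have h1 : π.norm.natAbs ≠ 1 := fun e => hπ.not_isUnit (Zsqrtd.norm_eq_one_iff.mp e)
  have := natAbs_norm_mod_four ho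
  omega

theorem fermat {x : ℤ[i]} (hx : ¬ π ∣ x) :
    (Ideal.Quotient.mk (Ideal.span {π}) x ^ ((π.norm.natAbs - 1) / 4)) ^ 4 = 1 := by
  have := finite_quotient hπ ho
  let := Fintype.ofFinite (ℤ[i] ⧸ Ideal.span {π})
  have := isMaximal_span hπ
  let := Ideal.Quotient.field (Ideal.span {π})
  have h4 := natAbs_norm_mod_four ho
  rw [← pow_mul, show (π.norm.natAbs - 1) / 4 * 4 = π.norm.natAbs - 1 by omega, ← natCard_quotient hπ ho,
    Nat.card_eq_fintype_card]
  exact FiniteField.pow_card_sub_one_eq_one _ fun h => hx (Ideal.mem_span_singleton.mp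
    (Ideal.Quotient.eq_zero_iff_mem.mp h))

/-- The defining property. -/
theorem symbolPrime4_spec {x : ℤ[i]} (hx : ¬ π ∣ x) :
    symbolPrime4 π x ^ 4 = 1 ∧ π ∣ x ^ ((π.norm.natAbs - 1) / 4) - symbolPrime4 π x := by
  set y := x ^ ((π.norm.natAbs - 1) / 4) with hy
  have h0 : π ∣ (y - 1) * (y + 1) * ((y - ⟨0, 1⟩) * (y - ⟨0, -1⟩)) := by
    rw [show (y - 1) * (y + 1) * ((y - ⟨0, 1⟩) * (y - ⟨0, -1⟩)) = y ^ 4 - 1 by
      rw [show ((y - ⟨0, 1⟩) * (y - ⟨0, -1⟩) : ℤ[i]) =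
        y ^ 2 - (⟨0, 1⟩ + ⟨0, -1⟩) * y + ⟨0, 1⟩ * ⟨0, -1⟩ by ring,
        show ((⟨0, 1⟩ + ⟨0, -1⟩ : ℤ[i])) = 0 by decide, show ((⟨0, 1⟩ * ⟨0, -1⟩ : ℤ[i])) = 1 by decide]
      ring, ← Ideal.mem_span_singleton, ← Ideal.Quotient.eq, map_pow, map_one, hy, map_pow]
    exact fermat hπ ho hx
  have h : ∃ u : ℤ[i], u ^ 4 = 1 ∧ π ∣ y - u := by
    rcases hπ.dvd_mul.mp h0 with h | h <;> rcases hπ.dvd_mul.mp h with h | h
    exacts [⟨1, one_pow 4, h⟩, ⟨-1, by decide, by rwa [sub_neg_eq_add]⟩, ⟨_, by decide, h⟩, ⟨_, by decide, h⟩]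
  rw [symbolPrime4, dif_pos h]
  exact h.choose_spec

theorem symbolPrime4_eq_zero {x : ℤ[i]} (hx : π ∣ x) : symbolPrime4 π x = 0 := by
  rw [symbolPrime4, dif_neg]
  rintro ⟨u, hu, hd⟩
  have h1 : π ∣ u := by
    have := dvd_sub (dvd_pow hx (exponent_pos hπ ho).ne') hd
    rwa [sub_sub_cancel] at this
  exact hπ.not_dvd_one (hu ▸ dvd_pow h1 (by norm_num))

/-- Uniqueness. -/
theorem symbolPrime4_eq {x u : ℤ[i]} (hu : u ^ 4 = 1) (h : π ∣ x ^ ((π.norm.natAbs - 1) / 4) - u) :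
    symbolPrime4 π x = u := by
  have hx : ¬ π ∣ x := fun hx => hπ.not_dvd_one (by
    have := dvd_sub (dvd_pow hx (exponent_pos hπ ho).ne') h
    rw [sub_sub_cancel] at this
    exact hu ▸ dvd_pow this (by norm_num))
  obtain ⟨h1, h2⟩ := symbolPrime4_spec hπ ho hx
  refine unit_eq_of_dvd hπ ho h1 hu ?_
  have := dvd_sub h h2
  rwa [sub_sub_sub_cancel_left] at this

theorem symbolPrime4_mul (x y : ℤ[i]) : symbolPrime4 π (x * y) = symbolPrime4 π x * symbolPrime4 π y := by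
  by_cases hx : π ∣ x
  · rw [symbolPrime4_eq_zero hπ ho hx, symbolPrime4_eq_zero hπ ho (hx.mul_right y), zero_mul]
  by_cases hy : π ∣ y
  · rw [symbolPrime4_eq_zero hπ ho hy, symbolPrime4_eq_zero hπ ho (hy.mul_left x), mul_zero]
  obtain ⟨a1, a2⟩ := symbolPrime4_spec hπ ho hx
  obtain ⟨b1, b2⟩ := symbolPrime4_spec hπ ho hy
  refine symbolPrime4_eq hπ ho (by rw [mul_pow, a1, b1, one_mul]) ?_
  rw [mul_pow, show ∀ a b u v : ℤ[i], a * b - u * v = (a - u) * b + u * (b - v) from fun a b u v => by ring]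
  exact dvd_add (a2.mul_right _) (b2.mul_left _)

theorem symbolPrime4_one : symbolPrime4 π 1 = 1 :=
  symbolPrime4_eq hπ ho (one_pow 4) (by rw [one_pow, sub_self]; exact dvd_zero _)

theorem symbolPrime4_congr {x y : ℤ[i]} (h : π ∣ x - y) : symbolPrime4 π x = symbolPrime4 π y := by
  by_cases hy : π ∣ y
  · rw [symbolPrime4_eq_zero hπ ho hy, symbolPrime4_eq_zero hπ ho (by simpa using dvd_add h hy)]
  obtain ⟨a1, a2⟩ := symbolPrime4_spec hπ ho hy
  refine symbolPrime4_eq hπ ho a1 ?_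
  rw [← sub_add_sub_cancel _ (y ^ ((π.norm.natAbs - 1) / 4))]
  exact dvd_add (h.trans (sub_dvd_pow_sub_pow _ _ _)) a2

theorem symbolPrime4_eq_zero_iff {x : ℤ[i]} : symbolPrime4 π x = 0 ↔ π ∣ x :=
  ⟨fun h => by_contra fun hx => by
    have h1 := (symbolPrime4_spec hπ ho hx).1
    rw [h, zero_pow (by norm_num)] at h1
    exact zero_ne_one h1, symbolPrime4_eq_zero hπ ho⟩

/-- **The symbol detects fourth powers.** -/
theorem symbolPrime4_eq_one_iff {x : ℤ[i]} (hx : ¬ π ∣ x) : symbolPrime4 π x = 1 ↔ ∃ y, π ∣ x - y ^ 4 := by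
  have := finite_quotient hπ ho
  let := Fintype.ofFinite (ℤ[i] ⧸ Ideal.span {π})
  have := isMaximal_span hπ
  let := Ideal.Quotient.field (Ideal.span {π})
  have h4 := natAbs_norm_mod_four ho
  set m := (π.norm.natAbs - 1) / 4 with hm
  constructor
  · intro h
    have hs := (symbolPrime4_spec hπ ho hx).2
    rw [h, ← Ideal.mem_span_singleton, ← Ideal.Quotient.eq, map_pow, map_one] at hs
    obtain ⟨g, hg⟩ := IsCyclic.exists_generator (α := (ℤ[i] ⧸ Ideal.span {π})ˣ)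
    have hx0 : Ideal.Quotient.mk (Ideal.span {π}) x ≠ 0 := fun e =>
      hx (Ideal.mem_span_singleton.mp (Ideal.Quotient.eq_zero_iff_mem.mp e))
    obtain ⟨k, hk⟩ := Submonoid.mem_powers_iff _ _ |>.mp (mem_powers_iff_mem_zpowers.mpr (hg (Units.mk0 _ hx0)))
    have hord : orderOf g = 4 * m := by
      rw [orderOf_eq_card_of_forall_mem_zpowers hg, Nat.card_units, natCard_quotient hπ ho]
      omega
    have hpow : g ^ (k * m) = 1 := by
      rw [pow_mul, hk]
      exact Units.ext (by rw [Units.val_pow_eq_pow_val, Units.val_mk0, hs, Units.val_one])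
    rw [← orderOf_dvd_iff_pow_eq_one, hord] at hpow
    obtain ⟨t, rfl⟩ := (Nat.mul_dvd_mul_iff_right (exponent_pos hπ ho)).mp hpow
    obtain ⟨y, hy⟩ := Ideal.Quotient.mk_surjective ((g ^ t : (ℤ[i] ⧸ Ideal.span {π})ˣ) : ℤ[i] ⧸ Ideal.span {π})
    refine ⟨y, Ideal.mem_span_singleton.mp (Ideal.Quotient.eq.mp ?_)⟩
    rw [map_pow, hy, ← Units.val_pow_eq_pow_val, ← pow_mul, mul_comm, hk, Units.val_mk0]
  · rintro ⟨y, hy⟩
    refine symbolPrime4_eq hπ ho (one_pow 4) ?_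
    have hy' : ¬ π ∣ y := fun h => hx (by
      have := dvd_add hy (dvd_pow h (show 4 ≠ 0 by norm_num))
      rwa [sub_add_cancel] at this)
    rw [← Ideal.mem_span_singleton, ← Ideal.Quotient.eq] at hy ⊢
    rw [map_pow, hy, map_pow, map_one, ← pow_mul, mul_comm, pow_mul]
    exact fermat hπ ho hy'

end FA.Biquadratic
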