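import Fermat.Agent.Biquadratic.Symbol

/-!
# Reciprocity with a rational integer

A weight of `D` is the symbol `(D / α)₄` on primary elements prime to `D`, and the weight of `± q` is also the symbol
`(α / q)₄`. Hence `(d / α)₄ = (α / d)₄` for primary `α` and rational `d ≡ 1 (mod 4)`.
-/

set_option autoImplicit false
set_option linter.unusedSectionVars false

noncomputable section

open scoped Classical

namespace FA.Biquadratic

open FA.CM.Quartic

local notation "ℤ[i]" => GaussianInt

/-- A weight is a symbol. -/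
theorem symbol4_eq_weight {D : ℤ} {φ : ℤ[i] → ℤ[i]} (hφ : IsWeight D φ) {α : ℤ[i]} (hα : IsPrimary α)
    (hc : IsCoprime α (D : ℤ[i])) : symbol4 α (D : ℤ[i]) = φ α := by
  refine primary_induction (P := fun α => IsCoprime α (D : ℤ[i]) → symbol4 α (D : ℤ[i]) = φ α) ?_ ?_ hα hc
  · intro _
    have h := hφ.map_int 1 (by norm_num) isCoprime_one_left
    rw [Int.cast_one] at h
    rw [symbol4_one_left, h]
  intro π β hπ hp hβ ih hc
  have hc1 := hc.of_mul_left_left
  rw [symbol4_mul_left (isOdd_of_isPrimary hp) (isOdd_of_isPrimary hβ), ih hc.of_mul_left_right,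
    hφ.map_mul π β hp hβ, symbol4_prime hπ (isOdd_of_isPrimary hp)]
  congr 1
  rcases primaryPrime_cases hπ hp with ⟨p, _, j, hj, hp2, rfl⟩ | ⟨q, _, hq3, rfl⟩
  · rw [symbolPrime4_primaryPrime_intCast, hφ.map_primaryPrime p j hj hp2]
    intro h0
    exact hπ.not_isUnit (hc1.isUnit_of_dvd' dvd_rfl ((evalI_eq_zero_iff hj hp2 _).mp (by rw [map_intCast, h0])))
  · have hqD : ¬ (q : ℤ) ∣ D := fun h => hπ.not_isUnit (hc1.isUnit_of_dvd' dvd_rfl
      (neg_dvd.mpr (by rw [← Int.cast_natCast]; exact map_dvd (Int.castRingHom ℤ[i]) h)))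
    rw [symbolPrime4_associated (prime_natCast hq3) (isOdd_natCast_prime (by omega))
      (Associated.refl _).neg_right, symbolPrime4_natCast_intCast hq3 hqD]
    have h := hφ.map_int (-(q : ℤ)) (by omega) (isCoprime_of_intCast (by simpa using hc1))
    rwa [Int.cast_neg, Int.cast_natCast, eq_comm] at h

theorem star_pow_three {a : ℤ[i]} (h : IsQU a) : star a ^ 3 = a := by
  rcases h with rfl | rfl | rfl | rfl | rfl <;> decide

/-- **The weight of `± q` is the symbol at `q`.** -/
theorem weightOdd_eq {q : ℕ} [hq : Fact q.Prime] (hq2 : q ≠ 2) (α : ℤ[i]) :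
    weightOdd q α = symbol4 (q : ℤ[i]) α := by
  have h2K := two_ne_zero_K hq2
  have hlift : ∀ {u : ℤ[i]}, IsQU u → unitLift (sqrtNegOne q) (redI q u) = u := fun hu =>
    unitLift_evalI sqrtNegOne_mul_self h2K hu
  rcases (show q % 4 = 1 ∨ q % 4 = 3 by have := hq.out.eq_two_or_odd; omega) with h4 | h4
  · obtain ⟨j, hj, hι⟩ : ∃ j : ZMod q, j * j = -1 ∧
        algebraMap (ZMod q) (AlgebraicClosure (ZMod q)) j = sqrtNegOne q := by
      obtain ⟨j, hj⟩ := (ZMod.exists_sq_eq_neg_one_iff (p := q)).mpr (by omega)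
      rcases mul_self_eq_mul_self_iff.mp (show algebraMap (ZMod q) (AlgebraicClosure (ZMod q)) j *
          algebraMap (ZMod q) (AlgebraicClosure (ZMod q)) j = sqrtNegOne q * sqrtNegOne q by
        rw [← map_mul, ← hj, map_neg, map_one, sqrtNegOne_mul_self]) with h | h
      · exact ⟨j, hj.symm, h⟩
      · exact ⟨-j, by rw [neg_mul_neg, hj], by rw [map_neg, h, neg_neg]⟩
    set ι := algebraMap (ZMod q) (AlgebraicClosure (ZMod q))
    have key : ∀ γ : ℤ[i], redI q γ = ι (evalI hj γ) := fun γ => by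
      show evalI _ γ = _
      rw [evalI_apply, evalI_apply, map_add, map_mul, map_intCast, map_intCast, hι]
    set χ := quarticChar hj hq2
    set u := χ (evalI hj α) ^ 3 * χ (evalI hj (star α)) with hu
    have hQ := isQU_quarticChar hj hq2
    have hsymb : symb q α = redI q u := by
      rw [symb, if_pos h4, ← map_intCast (redI q) α.norm, Zsqrtd.norm_eq_mul_conj, map_mul, key, key, key, hu,
        map_mul, map_pow, evalI_quarticChar, evalI_quarticChar, map_mul, map_pow, map_pow, map_pow, mul_pow,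
        ← mul_assoc, ← pow_add, ← pow_mul]
      congr 2
      omega
    have hπ := prime_primaryPrime hj hq2
    have ho := isOdd_primaryPrime hj hq2
    rw [weightOdd, if_pos h4, hsymb, hlift ((isQU_pow (hQ _) _).mul (hQ _)), star_mul', star_pow,
      star_pow_three (hQ _), natCast_eq_primaryPrime_mul hj hq2, symbol4_mul_left ho (isOdd_star.mpr ho),
      symbol4_prime hπ ho, symbol4_prime (prime_star hπ) (isOdd_star.mpr ho), symbolPrime4_primaryPrime]
    congr 1
    conv_rhs => rw [← star_star α, symbolPrime4_star hπ ho, symbolPrime4_primaryPrime]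
  · have hπ := prime_natCast h4
    have ho := isOdd_natCast_prime (q := q) hq2
    have hq0 : redI q (q : ℤ[i]) = 0 := by rw [map_natCast, CharP.cast_eq_zero]
    have hsymb : symb q α = redI q α ^ (((q : ℤ[i]).norm.natAbs - 1) / 4) := by
      rw [symb, if_neg (by omega), ← redI_pow_succ_eq_norm h4, ← pow_mul, ← pow_add, Zsqrtd.norm_natCast,
        Int.natAbs_mul, Int.natAbs_natCast]
      congr 1
      obtain ⟨k, rfl⟩ : ∃ k, q = 4 * k + 3 := ⟨q / 4, by omega⟩
      rw [show (4 * k + 3) * (4 * k + 3) = 4 * (4 * (k * k) + 6 * k + 2) + 1 by ring,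
        show (4 * k + 3 + 1) * ((4 * k + 3 - 3) / 4) = 4 * (k * k) + 4 * k by
          rw [show (4 * k + 3 - 3) / 4 = k by omega]; ring]
      omega
    rw [weightOdd, if_neg (by omega), hsymb, symbol4_prime hπ ho]
    by_cases hx : (q : ℤ[i]) ∣ α
    · obtain ⟨γ, rfl⟩ := hx
      rw [map_mul, hq0, zero_mul, zero_pow (exponent_pos hπ ho).ne', symbolPrime4_eq_zero hπ ho (dvd_mul_right _ _),
        unitLift_zero sqrtNegOne_mul_self]
    obtain ⟨h1, γ, h2⟩ := symbolPrime4_spec hπ ho hx
    rw [← map_pow, sub_eq_iff_eq_add.mp h2, map_add, map_mul, hq0, zero_mul, zero_add,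
      hlift (by rcases isQU_of_pow_four h1 with e | e | e | e <;> rw [e] <;> unfold IsQU <;> decide)]

theorem associated_signedPrime {q : ℕ} : Associated (q : ℤ[i]) ((signedPrime q : ℤ) : ℤ[i]) := by
  unfold signedPrime
  split_ifs
  · rw [Int.cast_natCast]
  · rw [Int.cast_neg, Int.cast_natCast]
    exact (Associated.refl _).neg_right

/-- **Reciprocity with a rational integer.** -/
theorem symbol4_intCast_comm {d : ℤ} (hd : d % 4 = 1) {α : ℤ[i]} (hα : IsPrimary α)
    (hc : IsCoprime α (d : ℤ[i])) : symbol4 α (d : ℤ[i]) = symbol4 (d : ℤ[i]) α := by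
  induction hn : d.natAbs using Nat.strong_induction_on generalizing d with
  | _ n ih =>
  subst hn
  rcases eq_or_ne d.natAbs 1 with h1 | h1
  · obtain rfl : d = 1 := by omega
    rw [Int.cast_one, symbol4_one_left, symbol4_one_right (isOdd_of_isPrimary hα)]
  obtain ⟨q, hqp, hqd⟩ := Nat.exists_prime_and_dvd h1
  have := Fact.mk hqp
  have hqodd : q % 2 = 1 := by
    rcases Nat.mod_two_eq_zero_or_one q with h | h
    · have : (2 : ℤ) ∣ d := Int.natCast_dvd.mpr ((Nat.dvd_of_mod_eq_zero h).trans hqd)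
      omega
    · exact h
  have hq2 : q ≠ 2 := by omega
  have hs : (signedPrime q).natAbs = q := by unfold signedPrime; split_ifs <;> simp
  have hs4 : signedPrime q % 4 = 1 := by unfold signedPrime; split_ifs <;> omega
  obtain ⟨d', rfl⟩ : signedPrime q ∣ d := by rw [← Int.natAbs_dvd_natAbs, hs]; exact hqd
  have hd' : d' % 4 = 1 := by rw [Int.mul_emod, hs4] at hd; omega
  rw [Int.cast_mul] at hc ⊢
  have hlt : d'.natAbs < (signedPrime q * d').natAbs := by
    rw [Int.natAbs_mul, hs]
    exact lt_mul_left (by omega) hqp.one_lt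
  have hod : IsOdd ((d' : ℤ) : ℤ[i]) := isOdd_intCast.mpr (by omega)
  rw [symbol4_mul_right (isOdd_of_isPrimary hα),
    symbol4_mul_left (isOdd_intCast.mpr (by omega : signedPrime q % 2 = 1)) hod,
    ih _ hlt hd' hc.of_mul_right_right rfl, symbol4_associated (isOdd_natCast_prime hq2) associated_signedPrime,
    ← weightOdd_eq hq2, symbol4_eq_weight (isWeight_signedPrime hq2) hα hc.of_mul_right_left]

end FA.Biquadratic
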