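import Fermat.Agent.Biquadratic.Primary

/-!
# The biquadratic symbol

`(x / α)₄` is the product of the symbols at the prime factors of `α`. It is multiplicative in both arguments, depends
on `x` modulo `α` and on `α` up to a unit, and commutes with conjugation.
-/

set_option autoImplicit false
set_option linter.unusedSectionVars false

noncomputable section

open scoped Classical

namespace FA.Biquadratic

open FA.CM.Quartic

local notation "ℤ[i]" => GaussianInt

/-- The biquadratic symbol `(x / α)₄`. -/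
def symbol4 (α x : ℤ[i]) : ℤ[i] :=
  ((UniqueFactorizationMonoid.factors α).map (symbolPrime4 · x)).prod

theorem prod_map_eq_of_rel {s t : Multiset ℤ[i]} (h : Multiset.Rel Associated s t)
    (hs : ∀ a ∈ s, Prime a ∧ IsOdd a) (x : ℤ[i]) :
    (t.map (symbolPrime4 · x)).prod = (s.map (symbolPrime4 · x)).prod := by
  induction h with
  | zero => rfl
  | @cons a b as bs hab hrel ih =>
    obtain ⟨h1, h2⟩ := hs a (Multiset.mem_cons_self _ _)
    rw [Multiset.map_cons, Multiset.map_cons, Multiset.prod_cons, Multiset.prod_cons,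
      symbolPrime4_associated h1 h2 hab, ih fun c hc => hs c (Multiset.mem_cons_of_mem hc)]

theorem factors_spec {α : ℤ[i]} (hα : IsOdd α) :
    ∀ a ∈ UniqueFactorizationMonoid.factors α, Prime a ∧ IsOdd a := fun a ha =>
  ⟨UniqueFactorizationMonoid.prime_of_factor a ha,
    isOdd_of_dvd (UniqueFactorizationMonoid.dvd_of_mem_factors ha) hα⟩

/-- The symbol through any factorisation. -/
theorem symbol4_eq_prod {α : ℤ[i]} (hα : IsOdd α) {s : Multiset ℤ[i]} (hs : ∀ a ∈ s, Prime a)
    (h : Associated s.prod α) (x : ℤ[i]) : symbol4 α x = (s.map (symbolPrime4 · x)).prod := by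
  refine prod_map_eq_of_rel (UniqueFactorizationMonoid.factors_unique (fun a ha => (hs a ha).irreducible)
    UniqueFactorizationMonoid.irreducible_of_factor
    (h.trans (UniqueFactorizationMonoid.factors_prod hα.ne_zero).symm)) (fun a ha => ⟨hs a ha, ?_⟩) x
  exact isOdd_of_dvd ((Multiset.dvd_prod ha).trans h.dvd) hα

theorem symbol4_of_isUnit {α : ℤ[i]} (h : IsUnit α) (x : ℤ[i]) : symbol4 α x = 1 := by
  rw [symbol4_eq_prod (s := 0) ?_ (by simp) (by rw [Multiset.prod_zero]; exact (associated_one_iff_isUnit.mpr h).symm)]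
  · simp
  · rw [IsOdd]
    have := Zsqrtd.norm_eq_one_iff.mpr h
    omega

theorem symbol4_one_left (x : ℤ[i]) : symbol4 1 x = 1 := symbol4_of_isUnit isUnit_one x

theorem symbol4_prime {π : ℤ[i]} (hπ : Prime π) (ho : IsOdd π) (x : ℤ[i]) : symbol4 π x = symbolPrime4 π x := by
  rw [symbol4_eq_prod ho (s := {π}) (by simpa using hπ) (by rw [Multiset.prod_singleton])]
  simp

theorem symbol4_associated {α β : ℤ[i]} (hα : IsOdd α) (h : Associated α β) (x : ℤ[i]) :
    symbol4 β x = symbol4 α x := by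
  have hβ : IsOdd β := isOdd_of_dvd h.symm.dvd hα
  rw [symbol4_eq_prod hβ (fun a ha => (factors_spec hα a ha).1)
    ((UniqueFactorizationMonoid.factors_prod hα.ne_zero).trans h)]
  rfl

/-- Multiplicativity in the modulus. -/
theorem symbol4_mul_left {α β : ℤ[i]} (hα : IsOdd α) (hβ : IsOdd β) (x : ℤ[i]) :
    symbol4 (α * β) x = symbol4 α x * symbol4 β x := by
  rw [symbol4_eq_prod (isOdd_mul.mpr ⟨hα, hβ⟩)
    (s := UniqueFactorizationMonoid.factors α + UniqueFactorizationMonoid.factors β) ?_ ?_, Multiset.map_add,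
    Multiset.prod_add]
  · rfl
  · intro a ha
    rcases Multiset.mem_add.mp ha with h | h
    exacts [(factors_spec hα a h).1, (factors_spec hβ a h).1]
  · rw [Multiset.prod_add]
    exact (UniqueFactorizationMonoid.factors_prod hα.ne_zero).mul_mul
      (UniqueFactorizationMonoid.factors_prod hβ.ne_zero)

/-- Multiplicativity in the argument. -/
theorem symbol4_mul_right {α : ℤ[i]} (hα : IsOdd α) (x y : ℤ[i]) :
    symbol4 α (x * y) = symbol4 α x * symbol4 α y := by
  rw [symbol4, symbol4, symbol4, ← Multiset.prod_map_mul]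
  exact congrArg _ (Multiset.map_congr rfl fun a ha =>
    symbolPrime4_mul (factors_spec hα a ha).1 (factors_spec hα a ha).2 x y)

theorem symbol4_one_right {α : ℤ[i]} (hα : IsOdd α) : symbol4 α 1 = 1 :=
  Multiset.prod_eq_one fun u hu => by
    obtain ⟨a, ha, rfl⟩ := Multiset.mem_map.mp hu
    exact symbolPrime4_one (factors_spec hα a ha).1 (factors_spec hα a ha).2

/-- The symbol depends on `x` modulo `α`. -/
theorem symbol4_congr {α x y : ℤ[i]} (hα : IsOdd α) (h : α ∣ x - y) : symbol4 α x = symbol4 α y :=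
  congrArg Multiset.prod (Multiset.map_congr rfl fun a ha =>
    symbolPrime4_congr (factors_spec hα a ha).1 (factors_spec hα a ha).2
      ((UniqueFactorizationMonoid.dvd_of_mem_factors ha).trans h))

theorem symbol4_pow_four_eq_one {α x : ℤ[i]} (hα : IsOdd α) (hx : IsCoprime α x) : symbol4 α x ^ 4 = 1 := by
  rw [symbol4, ← Multiset.prod_map_pow]
  refine Multiset.prod_eq_one fun u hu => ?_
  obtain ⟨a, ha, rfl⟩ := Multiset.mem_map.mp hu
  obtain ⟨hp, ho⟩ := factors_spec hα a ha
  exact (symbolPrime4_spec hp ho fun h => hp.not_isUnit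
    (hx.isUnit_of_dvd' (UniqueFactorizationMonoid.dvd_of_mem_factors ha) h)).1

theorem symbol4_eq_zero {α x : ℤ[i]} (hα : IsOdd α) (hx : ¬ IsCoprime α x) : symbol4 α x = 0 := by
  obtain ⟨π, hπ, hπα, hπx⟩ : ∃ π : ℤ[i], Prime π ∧ π ∣ α ∧ π ∣ x := by
    by_contra hc
    refine hx (isCoprime_of_prime_dvd (fun h => hα.ne_zero h.1) fun π hπ h1 h2 => hc ⟨π, hπ, h1, h2⟩)
  obtain ⟨γ, rfl⟩ := hπα
  obtain ⟨ho, hγ⟩ := isOdd_mul.mp hα
  rw [symbol4_mul_left ho hγ, symbol4_prime hπ ho, symbolPrime4_eq_zero hπ ho hπx, zero_mul]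

theorem symbol4_mul_star_self {α x : ℤ[i]} (hα : IsOdd α) (hx : IsCoprime α x) :
    symbol4 α x * star (symbol4 α x) = 1 := by
  have h := symbol4_pow_four_eq_one hα hx
  have hq : IsQU (symbol4 α x) := by
    rcases isQU_of_pow_four h with e | e | e | e <;> rw [e] <;> unfold IsQU <;> decide
  rw [hq.star_eq, ← pow_succ', h]

/-- Conjugation. -/
theorem symbol4_star {α : ℤ[i]} (hα : IsOdd α) (x : ℤ[i]) :
    symbol4 (star α) (star x) = star (symbol4 α x) := by
  rw [symbol4_eq_prod (isOdd_star.mpr hα) (s := (UniqueFactorizationMonoid.factors α).map (starRingEnd ℤ[i]))]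
  · show _ = starRingEnd ℤ[i] _
    rw [symbol4, map_multiset_prod, Multiset.map_map, Multiset.map_map]
    exact congrArg _ (Multiset.map_congr rfl fun a ha =>
      symbolPrime4_star (factors_spec hα a ha).1 (factors_spec hα a ha).2 x)
  · intro a ha
    obtain ⟨b, hb, rfl⟩ := Multiset.mem_map.mp ha
    exact prime_star (factors_spec hα b hb).1
  · rw [← map_multiset_prod]
    exact (UniqueFactorizationMonoid.factors_prod hα.ne_zero).map (starRingEnd ℤ[i])

/-- **The supplement at the units**: `(u / α)₄ = u ^ ((N α - 1) / 4)`. -/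
theorem symbol4_unit {α u : ℤ[i]} (hα : IsOdd α) (hu : u ^ 4 = 1) :
    symbol4 α u = u ^ ((α.norm.natAbs - 1) / 4) := by
  have key : ∀ s : Multiset ℤ[i], (∀ a ∈ s, Prime a ∧ IsOdd a) →
      IsOdd s.prod ∧ (s.map (symbolPrime4 · u)).prod = u ^ ((s.prod.norm.natAbs - 1) / 4) := by
    intro s
    induction s using Multiset.induction with
    | empty =>
      intro _
      rw [Multiset.prod_zero, Multiset.map_zero, Multiset.prod_zero, IsOdd, Zsqrtd.norm_one]
      exact ⟨by norm_num, by simp⟩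
    | cons a s ih =>
      intro hs
      obtain ⟨hp, ho⟩ := hs a (Multiset.mem_cons_self _ _)
      obtain ⟨hso, hsv⟩ := ih fun b hb => hs b (Multiset.mem_cons_of_mem hb)
      rw [Multiset.prod_cons, Multiset.map_cons, Multiset.prod_cons]
      refine ⟨isOdd_mul.mpr ⟨ho, hso⟩, ?_⟩
      rw [symbolPrime4_unit hp ho hu, hsv, ← pow_add, Zsqrtd.norm_mul, Int.natAbs_mul, pow_eq_pow_mod _ hu,
        pow_eq_pow_mod ((a.norm.natAbs * s.prod.norm.natAbs - 1) / 4) hu]
      congr 1
      obtain ⟨k, hk⟩ : ∃ k, a.norm.natAbs = 4 * k + 1 :=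
        ⟨a.norm.natAbs / 4, by have := natAbs_norm_mod_four ho; omega⟩
      obtain ⟨l, hl⟩ : ∃ l, s.prod.norm.natAbs = 4 * l + 1 :=
        ⟨s.prod.norm.natAbs / 4, by have := natAbs_norm_mod_four hso; omega⟩
      rw [hk, hl, show (4 * k + 1) * (4 * l + 1) = 4 * (4 * (k * l) + k + l) + 1 by ring]
      omega
  rw [symbol4, (key _ (factors_spec hα)).2,
    norm_eq_of_associated (UniqueFactorizationMonoid.factors_prod hα.ne_zero)]

theorem coprime_intCast {m n : ℤ} (h : IsCoprime m n) : IsCoprime (m : ℤ[i]) (n : ℤ[i]) :=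
  h.map (Int.castRingHom ℤ[i])

theorem isCoprime_of_intCast {m n : ℤ} (h : IsCoprime (m : ℤ[i]) (n : ℤ[i])) : IsCoprime m n := by
  obtain ⟨x, y, hxy⟩ := h
  exact ⟨x.re, y.re, by simpa using congrArg Zsqrtd.re hxy⟩

theorem symbol4_natCast_intCast {n : ℕ} (hn : n % 2 = 1) {d : ℤ} (hd : IsCoprime (n : ℤ) d) :
    symbol4 (n : ℤ[i]) (d : ℤ[i]) = 1 := by
  induction n using induction_on_primes with
  | zero => simp at hn
  | one => rw [Nat.cast_one, symbol4_one_left]
  | prime_mul p a hp ih =>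
    have := Fact.mk hp
    obtain ⟨hp1, ha1⟩ : p % 2 = 1 ∧ a % 2 = 1 := by
      rcases Nat.mod_two_eq_zero_or_one p with h | h <;> rcases Nat.mod_two_eq_zero_or_one a with h' | h' <;>
        simp [Nat.mul_mod, h, h'] at hn ⊢
    rw [Nat.cast_mul] at hd
    have hpo : IsOdd (p : ℤ[i]) := isOdd_natCast_prime (by omega)
    have hao : IsOdd (a : ℤ[i]) := by rw [← Int.cast_natCast, isOdd_intCast]; omega
    rw [Nat.cast_mul, symbol4_mul_left hpo hao, ih ha1 hd.of_mul_left_right, mul_one]
    have hnd : ¬ (p : ℤ) ∣ d := fun h => by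
      have := hd.of_mul_left_left.isUnit_of_dvd' dvd_rfl h
      rw [Int.isUnit_iff] at this
      have := hp.two_le
      omega
    rcases (show p % 4 = 1 ∨ p % 4 = 3 by omega) with h4 | h4
    · obtain ⟨j, hj⟩ := (ZMod.exists_sq_eq_neg_one_iff (p := p)).mpr (by omega)
      have hp2 : p ≠ 2 := by omega
      have hπ := prime_primaryPrime hj.symm hp2
      have ho := isOdd_primaryPrime hj.symm hp2
      have hs := symbolPrime4_star hπ ho (d : ℤ[i])
      rw [star_intCast] at hs
      rw [natCast_eq_primaryPrime_mul hj.symm hp2, symbol4_mul_left ho (isOdd_star.mpr ho), symbol4_prime hπ ho,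
        symbol4_prime (prime_star hπ) (isOdd_star.mpr ho), hs]
      rw [← symbol4_prime hπ ho]
      refine symbol4_mul_star_self ho ((hπ.coprime_iff_not_dvd).mpr fun hd' => hnd ?_)
      rw [← evalI_eq_zero_iff hj.symm hp2, map_intCast] at hd'
      exact (ZMod.intCast_zmod_eq_zero_iff_dvd _ _).mp hd'
    · rw [symbol4_prime (prime_natCast h4) hpo, symbolPrime4_natCast_intCast h4 hnd]

/-- **Two coprime rational integers have trivial symbol.** -/
theorem symbol4_intCast_intCast {n d : ℤ} (hn : n % 2 = 1) (hd : IsCoprime n d) :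
    symbol4 (n : ℤ[i]) (d : ℤ[i]) = 1 := by
  have hd' : IsCoprime (n.natAbs : ℤ) d := by
    rcases Int.natAbs_eq n with e | e <;> rw [e] at hd
    exacts [hd, by simpa using hd.neg_left]
  rw [symbol4_associated (α := ((n.natAbs : ℕ) : ℤ[i])) (by rw [← Int.cast_natCast, isOdd_intCast]; omega) ?_]
  · exact symbol4_natCast_intCast (by omega) hd'
  · rw [← Int.cast_natCast]
    exact (Int.associated_natAbs n).symm.map (Int.castRingHom ℤ[i])

end FA.Biquadratic
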