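import Fermat.Agent.Biquadratic.Law
import Mathlib.Tactic.IntervalCases

/-!
# The biquadratic character of `2`

For primary `a + b i`, `(2 / (a + b i))₄ = i ^ (-b / 2)`. So `2` is a fourth power modulo a prime `p ≡ 1 (mod 4)`
exactly when `p = x² + 64 y²`, as Gauss found.
-/

set_option autoImplicit false
set_option linter.unusedSectionVars false

noncomputable section

open scoped Classical

namespace FA.Biquadratic

open FA.CM.Quartic

local notation "ℤ[i]" => GaussianInt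
local notation "iu" => (⟨0, 1⟩ : GaussianInt)

theorem coprime_two {α : ℤ[i]} (hα : IsOdd α) : IsCoprime α ((2 : ℤ) : ℤ[i]) := by
  rw [IsOdd] at hα
  refine ⟨star α, ((-(α.norm / 2) : ℤ) : ℤ[i]), ?_⟩
  rw [mul_comm (star α), ← Zsqrtd.norm_eq_mul_conj, ← Int.cast_mul, ← Int.cast_add,
    show α.norm + -(α.norm / 2) * 2 = 1 by omega, Int.cast_one]

theorem weightTwo_eq {α : ℤ[i]} (hα : IsPrimary α) : weightTwo α = iu ^ ((-(α.im / 2)) % 4).toNat := by
  obtain ⟨h1, h2⟩ := hα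
  obtain ⟨k, r, hr0, hr8, hr⟩ : ∃ k r : ℤ, 0 ≤ r ∧ r < 8 ∧ α.re = 8 * k + r :=
    ⟨α.re / 8, α.re % 8, by omega, by omega, by omega⟩
  obtain ⟨l, s, hs0, hs8, hs⟩ : ∃ l s : ℤ, 0 ≤ s ∧ s < 8 ∧ α.im = 8 * l + s :=
    ⟨α.im / 8, α.im % 8, by omega, by omega, by omega⟩
  have hq : quarterNorm α = quarterNorm ⟨r, s⟩ := by
    have e : α.norm = (⟨r, s⟩ : ℤ[i]).norm + 16 * (4 * (k * k) + k * r + 4 * (l * l) + l * s) := by
      rw [Zsqrtd.norm_def, Zsqrtd.norm_def, hr, hs]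
      ring
    unfold quarterNorm
    omega
  have hc : ((α.re + α.im : ℤ) : ZMod 8) = ((r + s : ℤ) : ZMod 8) :=
    (ZMod.intCast_eq_intCast_iff' _ _ 8).mpr (by omega)
  have he : ((-(α.im / 2)) % 4).toNat = ((-(s / 2)) % 4).toNat := by omega
  rw [weightTwo, hq, hc, he]
  rw [hr, hs] at h2
  rw [hs] at h1
  interval_cases r <;> interval_cases s <;> first | omega | decide

/-- **The supplement at `2`.** -/
theorem symbol4_two {α : ℤ[i]} (hα : IsPrimary α) : symbol4 α 2 = iu ^ ((-(α.im / 2)) % 4).toNat := by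
  rw [show (2 : ℤ[i]) = ((2 : ℤ) : ℤ[i]) by norm_num,
    symbol4_eq_weight isWeight_two hα (coprime_two (isOdd_of_isPrimary hα)), weightTwo_eq hα]

theorem iu_pow_eq_one_iff {k : ℕ} (hk : k < 4) : iu ^ k = 1 ↔ k = 0 := by
  interval_cases k <;> simp [pow_succ, Zsqrtd.ext_iff]

/-- **Gauss's criterion for `2`.** -/
theorem two_fourth_power_iff {p : ℕ} [hp : Fact p.Prime] (h4 : p % 4 = 1) :
    (∃ y : ZMod p, y ^ 4 = 2) ↔ ∃ x y : ℤ, (p : ℤ) = x ^ 2 + 64 * y ^ 2 := by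
  have hp2 : p ≠ 2 := by omega
  obtain ⟨j, hj'⟩ := (ZMod.exists_sq_eq_neg_one_iff (p := p)).mpr (by omega)
  have hj := hj'.symm
  set π := primaryPrime hj hp2 with hπdef
  have hπ := prime_primaryPrime hj hp2
  have hpr := isPrimary_primaryPrime hj hp2
  have ho := isOdd_of_isPrimary hpr
  have hnd : ¬ π ∣ 2 := fun h => by
    rw [← evalI_eq_zero_iff hj hp2, map_ofNat] at h
    exact two_ne_zero' hp2 h
  have hpow : (∃ y : ZMod p, y ^ 4 = 2) ↔ π.im % 8 = 0 := by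
    have h1 : (∃ y : ZMod p, y ^ 4 = 2) ↔ symbolPrime4 π 2 = 1 := by
      rw [symbolPrime4_eq_one_iff hπ ho hnd]
      constructor
      · rintro ⟨y, hy⟩
        refine ⟨(y.val : ℤ[i]), (evalI_eq_zero_iff hj hp2 _).mp ?_⟩
        rw [map_sub, map_pow, map_natCast, ZMod.natCast_zmod_val, hy, map_ofNat, sub_self]
      · rintro ⟨y, hy⟩
        rw [← evalI_eq_zero_iff hj hp2, map_sub, map_pow, map_ofNat, sub_eq_zero] at hy
        exact ⟨_, hy.symm⟩
    rw [h1, ← symbol4_prime hπ ho, symbol4_two hpr, iu_pow_eq_one_iff (by omega)]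
    have : (primaryPrime hj hp2).im % 2 = 0 := hpr.1
    simp only [hπdef]
    omega
  rw [hpow]
  constructor
  · intro h
    obtain ⟨y, hy⟩ := Int.dvd_of_emod_eq_zero h
    refine ⟨π.re, y, ?_⟩
    rw [← norm_primaryPrime hj hp2, ← hπdef, Zsqrtd.norm_def, hy]
    ring
  · rintro ⟨x, y, hxy⟩
    have hx : x % 2 = 1 := by
      rcases Int.emod_two_eq_zero_or_one x with h | h
      · obtain ⟨c, rfl⟩ := Int.dvd_of_emod_eq_zero h
        ring_nf at hxy
        omega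
      · exact h
    obtain ⟨x', hx4, hsq⟩ : ∃ x' : ℤ, x' % 4 = 1 ∧ x' * x' = x * x := by
      rcases (show x % 4 = 1 ∨ x % 4 = 3 by omega) with h | h
      exacts [⟨x, h, rfl⟩, ⟨-x, by omega, neg_mul_neg x x⟩]
    set π₀ : ℤ[i] := ⟨x', 8 * y⟩ with hπ₀
    have hp0 : IsPrimary π₀ := by
      simp only [IsPrimary, hπ₀]
      omega
    have hn : π₀.norm = p := by
      rw [Zsqrtd.norm_def, hπ₀, hxy]
      linear_combination hsq
    have key : ∀ γ : ℤ[i], IsPrimary γ → γ.norm = p → π ∣ γ → π = γ := fun γ hγ hnγ ⟨c, hc⟩ => by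
      refine eq_of_associated hpr hγ ?_
      have h := congrArg (fun z : ℤ[i] => z.norm.natAbs) hc
      simp only [hnγ, Zsqrtd.norm_mul, Int.natAbs_mul, hπdef, norm_primaryPrime, Int.natAbs_natCast] at h
      have hc1 : c.norm.natAbs = 1 := (mul_eq_left₀ hp.out.ne_zero).mp h.symm
      exact ⟨(Zsqrtd.norm_eq_one_iff.mp hc1).unit, hc.symm⟩
    have hdvd : π ∣ π₀ * star π₀ := by
      rw [← Zsqrtd.norm_eq_mul_conj, hn, Int.cast_natCast, natCast_eq_primaryPrime_mul hj hp2]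
      exact dvd_mul_right _ _
    rcases hπ.dvd_mul.mp hdvd with h | h
    · rw [key _ hp0 hn h, hπ₀]
      simp
    · rw [key _ (isPrimary_star hp0) (by rw [Zsqrtd.norm_conj, hn]) h, hπ₀, Zsqrtd.im_star]
      simp

end FA.Biquadratic
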